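import Mathlib

/-!
# S20, package D (duality by matrix inversion): abstract core

Self-contained (Mathlib only).  Given a "frame" `v : ι → Q → ℍ → ℂ`, `Q = SL(2,ℤ) ⧸ Γ`, of
holomorphic functions which transform like the conjugates of modular forms of weights `k j`,
are pointwise linearly independent, with `#ι = #Q`, and which factor near `i∞` as
`U(τ) · diag(exp(2πi e_q τ)) · B` with `e_q < 1`, `det B ≠ 0`, `U(τ) → L`, `L` invertible,
the space of cusp forms of weight `w` for `Γ` (function level) is linearly equivalent to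
`Π j, CuspForm 𝒮ℒ (w + k j)`.
-/

set_option autoImplicit false

open UpperHalfPlane ModularForm CongruenceSubgroup Matrix.SpecialLinearGroup
open Filter Topology Asymptotics
open scoped MatrixGroups ModularForm Manifold

namespace Fermat.Agent.S20.H128

/-! ### Cusp forms as a submodule of functions -/

/-- Function-level cusp forms of weight `w` for `Γ ≤ SL(2,ℤ)`: holomorphic, `Γ`-invariant, and
every `SL(2,ℤ)`-translate is zero at `i∞`. -/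
def cuspSub (Γ : Subgroup SL(2, ℤ)) (w : ℤ) : Submodule ℂ (ℍ → ℂ) where
  carrier := {f | MDiff f ∧ (∀ γ ∈ Γ, f ∣[w] γ = f) ∧ ∀ g : SL(2, ℤ), IsZeroAtImInfty (f ∣[w] g)}
  add_mem' := by
    rintro f g ⟨hf1, hf2, hf3⟩ ⟨hg1, hg2, hg3⟩
    refine ⟨hf1.add hg1, fun γ hγ => ?_, fun γ => ?_⟩
    · rw [SlashAction.add_slash, hf2 γ hγ, hg2 γ hγ]
    · rw [SlashAction.add_slash]
      exact (zeroAtImInftySubmodule ℂ).add_mem (hf3 γ) (hg3 γ)
  zero_mem' := by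
    refine ⟨mdifferentiable_const, fun γ _ => SlashAction.zero_slash _ _, fun γ => ?_⟩
    rw [SlashAction.zero_slash]
    exact (zeroAtImInftySubmodule ℂ).zero_mem
  smul_mem' := by
    rintro c f ⟨hf1, hf2, hf3⟩
    refine ⟨hf1.const_smul c, fun γ hγ => ?_, fun γ => ?_⟩
    · rw [ModularForm.SL_smul_slash, hf2 γ hγ]
    · rw [ModularForm.SL_smul_slash]
      exact (zeroAtImInftySubmodule ℂ).smul_mem c (hf3 γ)

lemma mem_cuspSub {Γ : Subgroup SL(2, ℤ)} {w : ℤ} {f : ℍ → ℂ} :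
    f ∈ cuspSub Γ w ↔
      MDiff f ∧ (∀ γ ∈ Γ, f ∣[w] γ = f) ∧ ∀ g : SL(2, ℤ), IsZeroAtImInfty (f ∣[w] g) :=
  Iff.rfl

/-! ### Level-one cusp forms from function data -/

/-- Build a level-one cusp form from function-level data. -/
def mkCuspOne (k : ℤ) (c : ℍ → ℂ) (hol : MDiff c) (inv : ∀ γ : SL(2, ℤ), c ∣[k] γ = c)
    (hz : IsZeroAtImInfty c) : CuspForm 𝒮ℒ k where
  toFun := c
  slash_action_eq' A hA := by
    obtain ⟨A, rfl⟩ := hA
    exact inv A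
  holo' := hol
  zero_at_cusps' hc := by
    rw [Subgroup.IsArithmetic.isCusp_iff_isCusp_SL2Z] at hc
    rw [OnePoint.isZeroAt_iff_forall_SL2Z hc]
    intro γ _
    rw [inv γ]
    exact hz

@[simp] lemma coe_mkCuspOne (k : ℤ) (c : ℍ → ℂ) (hol : MDiff c)
    (inv : ∀ γ : SL(2, ℤ), c ∣[k] γ = c) (hz : IsZeroAtImInfty c) :
    ⇑(mkCuspOne k c hol inv hz) = c := rfl

lemma cuspOne_slash {k : ℤ} (f : CuspForm 𝒮ℒ k) (γ : SL(2, ℤ)) : (⇑f) ∣[k] γ = ⇑f := by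
  exact SlashInvariantForm.slash_action_eqn f (mapGL ℝ γ) ⟨γ, rfl⟩

lemma cuspOne_mdiff {k : ℤ} (f : CuspForm 𝒮ℒ k) : MDiff (⇑f) := CuspFormClass.holo f

lemma cuspOne_zero {k : ℤ} (f : CuspForm 𝒮ℒ k) : IsZeroAtImInfty (⇑f) :=
  CuspFormClass.zero_at_infty f

lemma cuspOne_decay {k : ℤ} (f : CuspForm 𝒮ℒ k) :
    (⇑f) =O[atImInfty] fun τ : ℍ => Real.exp (-2 * Real.pi * τ.im) := by
  have := CuspFormClass.exp_decay_atImInfty (h := 1) f one_pos one_mem_strictPeriods_SL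
  simpa using this

instance instFiniteDimCuspOne (k : ℤ) : FiniteDimensional ℂ (CuspForm 𝒮ℒ k) :=
  LinearEquiv.finiteDimensional (CuspForm.discriminantEquiv (k := k)).symm

/-! ### Conjugates of a `Γ`-invariant function -/

section conj

variable {Γ : Subgroup SL(2, ℤ)} {k : ℤ} {f : ℍ → ℂ}

lemma slash_inv_eq_of_mk_eq (hf : ∀ γ ∈ Γ, f ∣[k] γ = f) {g₁ g₂ : SL(2, ℤ)}
    (h : (g₁ : SL(2, ℤ) ⧸ Γ) = g₂) : f ∣[k] g₁⁻¹ = f ∣[k] g₂⁻¹ := by
  have hmem : g₁⁻¹ * g₂ ∈ Γ := QuotientGroup.eq.mp h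
  have hmem' : g₂⁻¹ * g₁ ∈ Γ := by
    have := Γ.inv_mem hmem
    simpa [mul_inv_rev] using this
  have : g₁⁻¹ = (g₁⁻¹ * g₂) * g₂⁻¹ := by group
  rw [this, SlashAction.slash_mul, hf _ hmem]

lemma slash_out_inv_slash (hf : ∀ γ ∈ Γ, f ∣[k] γ = f) (q : SL(2, ℤ) ⧸ Γ) (γ : SL(2, ℤ)) :
    (f ∣[k] ((q.out : SL(2, ℤ))⁻¹)) ∣[k] γ = f ∣[k] (((γ⁻¹ • q).out : SL(2, ℤ))⁻¹) := by
  rw [← SlashAction.slash_mul]
  have h1 : (q.out : SL(2, ℤ))⁻¹ * γ = (γ⁻¹ * q.out)⁻¹ := by group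
  rw [h1]
  apply slash_inv_eq_of_mk_eq hf
  rw [QuotientGroup.out_eq']
  conv_rhs => rw [← QuotientGroup.out_eq' q]
  rfl

lemma slash_out_inv_one (hf : ∀ γ ∈ Γ, f ∣[k] γ = f) :
    f ∣[k] ((((1 : SL(2, ℤ)) : SL(2, ℤ) ⧸ Γ).out : SL(2, ℤ))⁻¹) = f := by
  have := slash_inv_eq_of_mk_eq hf (g₁ := (((1 : SL(2, ℤ)) : SL(2, ℤ) ⧸ Γ).out : SL(2, ℤ)))
    (g₂ := 1) (QuotientGroup.out_eq' _)
  rw [this, inv_one, SlashAction.slash_one]

end conj

/-! ### Matrices of holomorphic functions -/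

section matrix

variable {n : Type} [Fintype n] [DecidableEq n]

lemma mdiff_det (M : ℍ → Matrix n n ℂ) (hM : ∀ i j, MDiff (fun τ => M τ i j)) :
    MDiff (fun τ => (M τ).det) := by
  have h : (fun τ => (M τ).det) =
      ∑ σ : Equiv.Perm n, (fun _ : ℍ => (((Equiv.Perm.sign σ : ℤˣ) : ℤ) : ℂ)) *
        ∏ i, (fun τ => M τ (σ i) i) := by
    funext τ
    simp [Matrix.det_apply, Finset.sum_apply, Finset.prod_apply, Units.smul_def, zsmul_eq_mul]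
  rw [h]
  refine MDifferentiable.sum (fun σ _ => ?_)
  exact MDifferentiable.mul mdifferentiable_const (MDifferentiable.prod (fun i _ => hM _ _))

lemma mdiff_inv_apply (M : ℍ → Matrix n n ℂ) (hM : ∀ i j, MDiff (fun τ => M τ i j))
    (hdet : ∀ τ, (M τ).det ≠ 0) (i j : n) : MDiff (fun τ => (M τ)⁻¹ i j) := by
  have h : (fun τ => (M τ)⁻¹ i j) =
      (fun τ => ((M τ).det)⁻¹) * (fun τ => ((M τ).updateRow j (Pi.single i 1)).det) := by
    funext τ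
    simp [Matrix.inv_def, Matrix.adjugate_apply, Ring.inverse_eq_inv']
  rw [h]
  refine MDifferentiable.mul (MDifferentiable.inv (mdiff_det M hM) hdet) (mdiff_det _ ?_)
  intro a b
  by_cases hab : a = j
  · subst hab
    simp only [Matrix.updateRow_self]
    exact mdifferentiable_const
  · simp only [Matrix.updateRow_ne hab]
    exact hM a b

lemma tendsto_inv_apply {l : Filter ℍ} (U : ℍ → Matrix n n ℂ) (L : Matrix n n ℂ)
    (hU : ∀ i j, Tendsto (fun τ => U τ i j) l (𝓝 (L i j))) (hL : L.det ≠ 0) (i j : n) :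
    Tendsto (fun τ => (U τ)⁻¹ i j) l (𝓝 (L⁻¹ i j)) := by
  have hUL : Tendsto U l (𝓝 L) :=
    tendsto_pi_nhds.2 (fun i => tendsto_pi_nhds.2 (fun j => hU i j))
  have hdet : Tendsto (fun τ => (U τ).det) l (𝓝 L.det) :=
    ((continuous_id.matrix_det (n := n) (R := ℂ)).tendsto L).comp hUL
  have hadj : Tendsto (fun τ => (U τ).adjugate) l (𝓝 L.adjugate) :=
    ((continuous_id.matrix_adjugate (n := n) (R := ℂ)).tendsto L).comp hUL
  have hadj' : Tendsto (fun τ => (U τ).adjugate i j) l (𝓝 (L.adjugate i j)) :=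
    tendsto_pi_nhds.1 (tendsto_pi_nhds.1 hadj i) j
  have h := (hdet.inv₀ hL).mul hadj'
  simpa [Matrix.inv_def, Ring.inverse_eq_inv'] using h

lemma eventually_det_ne_zero {l : Filter ℍ} (U : ℍ → Matrix n n ℂ) (L : Matrix n n ℂ)
    (hU : ∀ i j, Tendsto (fun τ => U τ i j) l (𝓝 (L i j))) (hL : L.det ≠ 0) :
    ∀ᶠ τ in l, (U τ).det ≠ 0 := by
  have hUL : Tendsto U l (𝓝 L) :=
    tendsto_pi_nhds.2 (fun i => tendsto_pi_nhds.2 (fun j => hU i j))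
  have hdet : Tendsto (fun τ => (U τ).det) l (𝓝 L.det) :=
    ((continuous_id.matrix_det (n := n) (R := ℂ)).tendsto L).comp hUL
  exact hdet.eventually_ne hL

lemma det_ne_zero_of_linearIndependent_rows (A : Matrix n n ℂ)
    (h : LinearIndependent ℂ (fun i : n => A i)) : A.det ≠ 0 := by
  have h1 : IsUnit A := Matrix.linearIndependent_rows_iff_isUnit.mp h
  have h2 : IsUnit A.det := (Matrix.isUnit_iff_isUnit_det A).mp h1
  exact h2.ne_zero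

end matrix

/-! ### Square frames -/

section frame

variable (Γ : Subgroup SL(2, ℤ)) [Fintype (SL(2, ℤ) ⧸ Γ)] [DecidableEq (SL(2, ℤ) ⧸ Γ)]

/-- A square frame: a family `v j q` (`j, q ∈ Q = SL(2,ℤ) ⧸ Γ`) of holomorphic functions which
transforms like the conjugates of modular forms of weights `k j`, is pointwise linearly
independent and factors at `i∞`. -/
structure IsSqFrame (k : (SL(2, ℤ) ⧸ Γ) → ℤ) (v : (SL(2, ℤ) ⧸ Γ) → (SL(2, ℤ) ⧸ Γ) → ℍ → ℂ) :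
    Prop where
  hol : ∀ j q, MDiff (v j q)
  equi : ∀ j q (γ : SL(2, ℤ)), (v j q) ∣[k j] γ = v j (γ⁻¹ • q)
  bdd : ∀ j q, IsBoundedAtImInfty (v j q)
  indep : ∀ τ : ℍ, LinearIndependent ℂ (fun j : SL(2, ℤ) ⧸ Γ => fun q : SL(2, ℤ) ⧸ Γ => v j q τ)
  infty : ∃ (e : (SL(2, ℤ) ⧸ Γ) → ℝ) (B : Matrix (SL(2, ℤ) ⧸ Γ) (SL(2, ℤ) ⧸ Γ) ℂ)
      (U : ℍ → Matrix (SL(2, ℤ) ⧸ Γ) (SL(2, ℤ) ⧸ Γ) ℂ)
      (L : Matrix (SL(2, ℤ) ⧸ Γ) (SL(2, ℤ) ⧸ Γ) ℂ),
      (∀ q, e q < 1) ∧ B.det ≠ 0 ∧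
      (∀ (τ : ℍ) (j q : SL(2, ℤ) ⧸ Γ), v j q τ =
        ∑ q', U τ j q' * Complex.exp (2 * Real.pi * Complex.I * e q' * τ) * B q' q) ∧
      (∀ j q, Tendsto (fun τ : ℍ => U τ j q) atImInfty (𝓝 (L j q))) ∧
      LinearIndependent ℂ (fun j : SL(2, ℤ) ⧸ Γ => L j)

variable {Γ} {k : (SL(2, ℤ) ⧸ Γ) → ℤ} {v : (SL(2, ℤ) ⧸ Γ) → (SL(2, ℤ) ⧸ Γ) → ℍ → ℂ}

/-- The matrix of values of the frame. -/
def frameMat (v : (SL(2, ℤ) ⧸ Γ) → (SL(2, ℤ) ⧸ Γ) → ℍ → ℂ) (τ : ℍ) :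
    Matrix (SL(2, ℤ) ⧸ Γ) (SL(2, ℤ) ⧸ Γ) ℂ :=
  Matrix.of fun j q => v j q τ

lemma frameMat_det_ne_zero (hv : IsSqFrame Γ k v) (τ : ℍ) : (frameMat v τ).det ≠ 0 :=
  det_ne_zero_of_linearIndependent_rows _ (hv.indep τ)

/-- The solution `y` of the linear system `∑ q, y q * v j q = c j`. -/
noncomputable def sol (v : (SL(2, ℤ) ⧸ Γ) → (SL(2, ℤ) ⧸ Γ) → ℍ → ℂ)
    (c : (SL(2, ℤ) ⧸ Γ) → ℍ → ℂ) (q : SL(2, ℤ) ⧸ Γ) : ℍ → ℂ :=
  fun τ => ((frameMat v τ)⁻¹.mulVec (fun j => c j τ)) q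

lemma sol_spec (hv : IsSqFrame Γ k v) (c : (SL(2, ℤ) ⧸ Γ) → ℍ → ℂ) (j : SL(2, ℤ) ⧸ Γ) (τ : ℍ) :
    ∑ q, sol v c q τ * v j q τ = c j τ := by
  have h : (frameMat v τ).mulVec ((frameMat v τ)⁻¹.mulVec (fun j => c j τ)) = fun j => c j τ := by
    rw [Matrix.mulVec_mulVec, Matrix.mul_nonsing_inv _ (frameMat_det_ne_zero hv τ).isUnit,
      Matrix.one_mulVec]
  have h2 := congrFun h j
  simp only [Matrix.mulVec, dotProduct, frameMat, Matrix.of_apply] at h2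
  rw [← h2]
  refine Finset.sum_congr rfl (fun q _ => ?_)
  simp only [sol, Matrix.mulVec, dotProduct, frameMat]
  ring

lemma sol_unique (hv : IsSqFrame Γ k v) (c : (SL(2, ℤ) ⧸ Γ) → ℍ → ℂ) (τ : ℍ)
    (y : (SL(2, ℤ) ⧸ Γ) → ℂ) (hy : ∀ j, ∑ q, y q * v j q τ = c j τ) (q : SL(2, ℤ) ⧸ Γ) :
    y q = sol v c q τ := by
  have h : (frameMat v τ).mulVec y = fun j => c j τ := by
    funext j
    rw [← hy j]
    simp only [Matrix.mulVec, dotProduct, frameMat, Matrix.of_apply]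
    refine Finset.sum_congr rfl (fun q _ => ?_)
    ring
  have h2 : y = (frameMat v τ)⁻¹.mulVec (fun j => c j τ) := by
    rw [← h, Matrix.mulVec_mulVec, Matrix.nonsing_inv_mul _ (frameMat_det_ne_zero hv τ).isUnit,
      Matrix.one_mulVec]
  exact congrFun h2 q

lemma sol_mdiff (hv : IsSqFrame Γ k v) (c : (SL(2, ℤ) ⧸ Γ) → ℍ → ℂ) (hc : ∀ j, MDiff (c j))
    (q : SL(2, ℤ) ⧸ Γ) : MDiff (sol v c q) := by
  have h : sol v c q = ∑ j, (fun τ => (frameMat v τ)⁻¹ q j) * c j := by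
    funext τ
    simp [sol, Matrix.mulVec, dotProduct, Finset.sum_apply]
  rw [h]
  refine MDifferentiable.sum (fun j _ => MDifferentiable.mul ?_ (hc j))
  exact mdiff_inv_apply (frameMat v) (fun i j => hv.hol i j) (frameMat_det_ne_zero hv) q j

lemma sol_slash (hv : IsSqFrame Γ k v) (w : ℤ) (c : (SL(2, ℤ) ⧸ Γ) → ℍ → ℂ)
    (hc : ∀ j (γ : SL(2, ℤ)), (c j) ∣[w + k j] γ = c j) (q : SL(2, ℤ) ⧸ Γ) (γ : SL(2, ℤ)) :
    (sol v c q) ∣[w] γ = sol v c (γ⁻¹ • q) := by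
  funext τ
  -- the vector `y q' := (sol (γ • q') ∣ γ) τ` solves the system at `τ`
  have key : ∀ q', ((sol v c (γ • q')) ∣[w] γ) τ = sol v c q' τ := by
    apply sol_unique hv c τ (fun q' => ((sol v c (γ • q')) ∣[w] γ) τ)
    intro j
    have hfun : (∑ q, sol v c q * v j q) = c j := by
      funext τ'
      simp only [Finset.sum_apply, Pi.mul_apply]
      exact sol_spec hv c j τ'
    have h1 : (∑ q, sol v c q * v j q) ∣[w + k j] γ = c j := by rw [hfun, hc j γ]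
    rw [SlashAction.sum_slash] at h1
    have h2 := congrFun h1 τ
    simp only [Finset.sum_apply] at h2
    rw [← h2]
    have h3 : ∑ q, ((sol v c q * v j q) ∣[w + k j] γ) τ =
        ∑ q, (fun q => ((sol v c q) ∣[w] γ) τ * v j (γ⁻¹ • q) τ) q := by
      refine Finset.sum_congr rfl (fun q _ => ?_)
      rw [mul_slash_SL2, hv.equi]
      rfl
    rw [h3, ← Equiv.sum_comp (MulAction.toPerm γ)
      (fun q => ((sol v c q) ∣[w] γ) τ * v j (γ⁻¹ • q) τ)]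
    refine Finset.sum_congr rfl (fun q' _ => ?_)
    simp [MulAction.toPerm_apply]
  have := key (γ⁻¹ • q)
  rwa [smul_inv_smul] at this

lemma tendsto_exp_decay (a : ℝ) (ha : a < 1) :
    Tendsto (fun τ : ℍ => Real.exp (2 * Real.pi * a * τ.im) * Real.exp (-2 * Real.pi * τ.im))
      atImInfty (𝓝 0) := by
  have h1 : ∀ τ : ℍ, Real.exp (2 * Real.pi * a * τ.im) * Real.exp (-2 * Real.pi * τ.im) =
      Real.exp (-(2 * Real.pi * (1 - a) * τ.im)) := by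
    intro τ
    rw [← Real.exp_add]
    congr 1
    ring
  simp_rw [h1]
  have h2 : Tendsto (fun τ : ℍ => τ.im) atImInfty atTop := tendsto_comap
  have hpos : 0 < 2 * Real.pi * (1 - a) := by
    have : 0 < 1 - a := by linarith
    positivity
  have h3 : Tendsto (fun τ : ℍ => 2 * Real.pi * (1 - a) * τ.im) atImInfty atTop :=
    h2.const_mul_atTop hpos
  exact Real.tendsto_exp_neg_atTop_nhds_zero.comp h3

lemma sol_zero (hv : IsSqFrame Γ k v) (c : (SL(2, ℤ) ⧸ Γ) → ℍ → ℂ)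
    (hc : ∀ j, (c j) =O[atImInfty] fun τ : ℍ => Real.exp (-2 * Real.pi * τ.im))
    (q : SL(2, ℤ) ⧸ Γ) : IsZeroAtImInfty (sol v c q) := by
  obtain ⟨e, B, U, L, he, hB, hfac, hU, hL⟩ := hv.infty
  have hLdet : L.det ≠ 0 := det_ne_zero_of_linearIndependent_rows L hL
  set Z : (SL(2, ℤ) ⧸ Γ) → ℍ → ℂ := fun q' τ => ∑ q, B q' q * sol v c q τ with hZ
  set Y : (SL(2, ℤ) ⧸ Γ) → ℍ → ℂ :=
    fun q' τ => Complex.exp (2 * Real.pi * Complex.I * e q' * τ) * Z q' τ with hY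
  -- Claim 1: `U(τ) Y(τ) = c(τ)`
  have h1 : ∀ τ, (U τ).mulVec (fun q' => Y q' τ) = fun j => c j τ := by
    intro τ
    funext j
    rw [← sol_spec hv c j τ]
    simp only [Matrix.mulVec, dotProduct, hY, hZ]
    simp_rw [hfac τ j, Finset.mul_sum]
    rw [Finset.sum_comm]
    refine Finset.sum_congr rfl (fun q _ => Finset.sum_congr rfl (fun q' _ => ?_))
    ring
  -- Claim 2: eventually `Y = U⁻¹ c`
  have h2 : ∀ᶠ τ in atImInfty, ∀ q', Y q' τ = ∑ j, (U τ)⁻¹ q' j * c j τ := by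
    filter_upwards [eventually_det_ne_zero U L hU hLdet] with τ hτ q'
    have h := congrArg (fun x => (U τ)⁻¹.mulVec x) (h1 τ)
    simp only [Matrix.mulVec_mulVec, Matrix.nonsing_inv_mul _ hτ.isUnit, Matrix.one_mulVec] at h
    have h' := congrFun h q'
    simpa [Matrix.mulVec, dotProduct] using h'
  -- Claim 3: `Y` decays exponentially
  have h3 : ∀ q', (Y q') =O[atImInfty] fun τ : ℍ => Real.exp (-2 * Real.pi * τ.im) := by
    intro q'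
    have hsum : (fun τ => ∑ j, (U τ)⁻¹ q' j * c j τ) =O[atImInfty]
        fun τ : ℍ => Real.exp (-2 * Real.pi * τ.im) := by
      have hterm : ∀ j ∈ (Finset.univ : Finset (SL(2, ℤ) ⧸ Γ)),
          (fun τ : ℍ => (U τ)⁻¹ q' j * c j τ) =O[atImInfty]
            fun τ : ℍ => Real.exp (-2 * Real.pi * τ.im) := by
        intro j _
        have hb : (fun τ => (U τ)⁻¹ q' j) =O[atImInfty] (fun _ : ℍ => (1 : ℝ)) :=
          (tendsto_inv_apply U L hU hLdet q' j).isBigO_one ℝ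
        simpa using hb.mul (hc j)
      have hs := IsBigO.sum hterm
      exact hs.congr_left (fun τ => by simp [Finset.sum_apply])
    refine hsum.congr' ?_ EventuallyEq.rfl
    filter_upwards [h2] with τ hτ
    exact (hτ q').symm
  -- Claim 4: `Z → 0`
  have h4 : ∀ q', Tendsto (Z q') atImInfty (𝓝 0) := by
    intro q'
    have hZY : Z q' =
        fun τ : ℍ => Complex.exp (-(2 * Real.pi * Complex.I * e q' * (τ : ℂ))) * Y q' τ := by
      funext τ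
      simp only [hY]
      rw [← mul_assoc, ← Complex.exp_add]
      simp
    have hexp : (fun τ : ℍ => Complex.exp (-(2 * Real.pi * Complex.I * e q' * τ))) =O[atImInfty]
        fun τ : ℍ => Real.exp (2 * Real.pi * e q' * τ.im) := by
      refine IsBigO.of_bound 1 (Eventually.of_forall (fun τ => ?_))
      rw [Complex.norm_exp, one_mul, Real.norm_eq_abs, abs_of_pos (Real.exp_pos _)]
      apply le_of_eq
      congr 1
      simp
    rw [hZY]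
    exact (hexp.mul (h3 q')).trans_tendsto (tendsto_exp_decay (e q') (he q'))
  -- Claim 5: `sol = B⁻¹ Z`
  have h5 : ∀ τ, sol v c q τ = ∑ q', B⁻¹ q q' * Z q' τ := by
    intro τ
    have h : (B⁻¹).mulVec (B.mulVec (fun q => sol v c q τ)) = fun q => sol v c q τ := by
      rw [Matrix.mulVec_mulVec, Matrix.nonsing_inv_mul _ hB.isUnit, Matrix.one_mulVec]
    have h' := congrFun h q
    rw [← h']
    simp [Matrix.mulVec, dotProduct, hZ]
  have h6 : Tendsto (fun τ => ∑ q', B⁻¹ q q' * Z q' τ) atImInfty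
      (𝓝 (∑ q' : SL(2, ℤ) ⧸ Γ, B⁻¹ q q' * 0)) :=
    tendsto_finsetSum _ (fun q' _ => (h4 q').const_mul _)
  simp only [mul_zero, Finset.sum_const_zero] at h6
  exact h6.congr (fun τ => (h5 τ).symm)

/-! ### The trace map and the duality equivalence -/

/-- The trace of `h` (of weight `w`) against the `j`-th member of the frame. -/
noncomputable def trFun (v : (SL(2, ℤ) ⧸ Γ) → (SL(2, ℤ) ⧸ Γ) → ℍ → ℂ) (w : ℤ) (h : ℍ → ℂ)
    (j : SL(2, ℤ) ⧸ Γ) : ℍ → ℂ :=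
  ∑ q : SL(2, ℤ) ⧸ Γ, (h ∣[w] ((q.out : SL(2, ℤ))⁻¹)) * v j q

omit [DecidableEq (SL(2, ℤ) ⧸ Γ)] in
lemma trFun_apply (w : ℤ) (h : ℍ → ℂ) (j : SL(2, ℤ) ⧸ Γ) (τ : ℍ) :
    trFun v w h j τ = ∑ q : SL(2, ℤ) ⧸ Γ, (h ∣[w] ((q.out : SL(2, ℤ))⁻¹)) τ * v j q τ := by
  simp [trFun, Finset.sum_apply]

lemma trFun_mdiff (hv : IsSqFrame Γ k v) (w : ℤ) {h : ℍ → ℂ} (hh : MDiff h)
    (j : SL(2, ℤ) ⧸ Γ) : MDiff (trFun v w h j) := by
  unfold trFun
  refine MDifferentiable.sum (fun q _ => MDifferentiable.mul ?_ (hv.hol j q))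
  rw [ModularForm.SL_slash]
  exact hh.slash w _

lemma trFun_slash (hv : IsSqFrame Γ k v) (w : ℤ) {h : ℍ → ℂ} (hh : ∀ γ ∈ Γ, h ∣[w] γ = h)
    (j : SL(2, ℤ) ⧸ Γ) (γ : SL(2, ℤ)) : (trFun v w h j) ∣[w + k j] γ = trFun v w h j := by
  unfold trFun
  rw [SlashAction.sum_slash,
    ← Equiv.sum_comp (MulAction.toPerm γ⁻¹)
      (fun q : SL(2, ℤ) ⧸ Γ => (h ∣[w] ((q.out : SL(2, ℤ))⁻¹)) * v j q)]
  refine Finset.sum_congr rfl (fun q _ => ?_)
  rw [mul_slash_SL2, hv.equi, slash_out_inv_slash hh]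
  rfl

lemma trFun_zero (hv : IsSqFrame Γ k v) (w : ℤ) {h : ℍ → ℂ}
    (hh : ∀ g : SL(2, ℤ), IsZeroAtImInfty (h ∣[w] g)) (j : SL(2, ℤ) ⧸ Γ) :
    IsZeroAtImInfty (trFun v w h j) := by
  unfold trFun
  refine (zeroAtImInftySubmodule ℂ).sum_mem (fun q _ => ?_)
  exact ZeroAtFilter.mul_boundedAtFilter (hh _) (hv.bdd j q)

omit [DecidableEq (SL(2, ℤ) ⧸ Γ)] in
lemma trFun_add (w : ℤ) (h₁ h₂ : ℍ → ℂ) (j : SL(2, ℤ) ⧸ Γ) :
    trFun v w (h₁ + h₂) j = trFun v w h₁ j + trFun v w h₂ j := by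
  unfold trFun
  rw [← Finset.sum_add_distrib]
  refine Finset.sum_congr rfl (fun q _ => ?_)
  rw [SlashAction.add_slash, add_mul]

omit [DecidableEq (SL(2, ℤ) ⧸ Γ)] in
lemma trFun_smul (w : ℤ) (a : ℂ) (h : ℍ → ℂ) (j : SL(2, ℤ) ⧸ Γ) :
    trFun v w (a • h) j = a • trFun v w h j := by
  unfold trFun
  rw [Finset.smul_sum]
  refine Finset.sum_congr rfl (fun q _ => ?_)
  rw [ModularForm.SL_smul_slash, smul_mul_assoc]

/-- The trace map, bundled. -/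
noncomputable def trMap (hv : IsSqFrame Γ k v) (w : ℤ) :
    cuspSub Γ w →ₗ[ℂ] ((j : SL(2, ℤ) ⧸ Γ) → CuspForm 𝒮ℒ (w + k j)) where
  toFun h := fun j => mkCuspOne (w + k j) (trFun v w h.1 j) (trFun_mdiff hv w h.2.1 j)
    (trFun_slash hv w h.2.2.1 j) (trFun_zero hv w h.2.2.2 j)
  map_add' h₁ h₂ := by
    funext j
    apply DFunLike.ext
    intro τ
    simp only [Pi.add_apply, add_apply, coe_mkCuspOne, Submodule.coe_add, trFun_add]
  map_smul' a h := by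
    funext j
    apply DFunLike.ext
    intro τ
    simp only [Pi.smul_apply, smul_apply, coe_mkCuspOne, Submodule.coe_smul, trFun_smul,
      RingHom.id_apply]

lemma trMap_apply (hv : IsSqFrame Γ k v) (w : ℤ) (h : cuspSub Γ w) (j : SL(2, ℤ) ⧸ Γ) :
    ⇑(trMap hv w h j) = trFun v w h.1 j := rfl

lemma trMap_injective (hv : IsSqFrame Γ k v) (w : ℤ) : Function.Injective (trMap hv w) := by
  rw [← LinearMap.ker_eq_bot, LinearMap.ker_eq_bot']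
  intro h hh
  apply Subtype.ext
  funext τ
  have h0 : ∀ j, ∑ q : SL(2, ℤ) ⧸ Γ, (h.1 ∣[w] ((q.out : SL(2, ℤ))⁻¹)) τ * v j q τ =
      (fun _ _ => (0 : ℂ) : (SL(2, ℤ) ⧸ Γ) → ℍ → ℂ) j τ := by
    intro j
    rw [← trFun_apply, ← trMap_apply hv w h j, hh]
    rfl
  have h1 := sol_unique hv (fun _ _ => (0 : ℂ)) τ
    (fun q : SL(2, ℤ) ⧸ Γ => (h.1 ∣[w] ((q.out : SL(2, ℤ))⁻¹)) τ) h0
    ((1 : SL(2, ℤ)) : SL(2, ℤ) ⧸ Γ)
  have h2 := sol_unique hv (fun _ _ => (0 : ℂ)) τ (fun _ => 0) (by intro j; simp)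
    ((1 : SL(2, ℤ)) : SL(2, ℤ) ⧸ Γ)
  rw [← h2, slash_out_inv_one h.2.2.1] at h1
  simpa using h1

lemma trMap_surjective (hv : IsSqFrame Γ k v) (w : ℤ) : Function.Surjective (trMap hv w) := by
  intro c
  set cf : (SL(2, ℤ) ⧸ Γ) → ℍ → ℂ := fun j => ⇑(c j) with hcf
  have hcs : ∀ j (γ : SL(2, ℤ)), (cf j) ∣[w + k j] γ = cf j := fun j γ => cuspOne_slash (c j) γ
  have hH_slash := sol_slash hv w cf hcs
  set q₀ : SL(2, ℤ) ⧸ Γ := ((1 : SL(2, ℤ)) : SL(2, ℤ) ⧸ Γ) with hq₀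
  have hmem : sol v cf q₀ ∈ cuspSub Γ w := by
    refine ⟨sol_mdiff hv cf (fun j => cuspOne_mdiff (c j)) q₀, fun γ hγ => ?_, fun g => ?_⟩
    · rw [hH_slash]
      congr 1
      rw [hq₀, MulAction.Quotient.smul_mk, QuotientGroup.eq]
      simpa using hγ
    · rw [hH_slash]
      exact sol_zero hv cf (fun j => cuspOne_decay (c j)) _
  refine ⟨⟨sol v cf q₀, hmem⟩, ?_⟩
  funext j
  apply DFunLike.ext
  intro τ
  rw [trMap_apply, trFun_apply]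
  have hq : ∀ q : SL(2, ℤ) ⧸ Γ, (sol v cf q₀) ∣[w] ((q.out : SL(2, ℤ))⁻¹) = sol v cf q := by
    intro q
    rw [hH_slash, inv_inv, hq₀, MulAction.Quotient.smul_mk, smul_eq_mul, mul_one,
      QuotientGroup.out_eq']
  simp_rw [hq]
  exact sol_spec hv cf j τ

/-- **Duality equivalence** for a square frame. -/
noncomputable def dualityEquiv (hv : IsSqFrame Γ k v) (w : ℤ) :
    cuspSub Γ w ≃ₗ[ℂ] ((j : SL(2, ℤ) ⧸ Γ) → CuspForm 𝒮ℒ (w + k j)) :=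
  LinearEquiv.ofBijective (trMap hv w) ⟨trMap_injective hv w, trMap_surjective hv w⟩

theorem finrank_cuspSub_of_sqFrame (hv : IsSqFrame Γ k v) (w : ℤ) :
    Module.finrank ℂ (cuspSub Γ w) =
      ∑ j : SL(2, ℤ) ⧸ Γ, Module.finrank ℂ (CuspForm 𝒮ℒ (w + k j)) := by
  rw [(dualityEquiv hv w).finrank_eq, Module.finrank_pi_fintype]

end frame

/-! ### General index type -/

section general

variable (Γ : Subgroup SL(2, ℤ)) [Fintype (SL(2, ℤ) ⧸ Γ)] [DecidableEq (SL(2, ℤ) ⧸ Γ)]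
  {ι : Type} [Fintype ι]

/-- A frame indexed by an arbitrary finite type `ι` with `#ι = #(SL(2,ℤ) ⧸ Γ)`. -/
structure IsFrame (k : ι → ℤ) (v : ι → (SL(2, ℤ) ⧸ Γ) → ℍ → ℂ) : Prop where
  hol : ∀ j q, MDiff (v j q)
  equi : ∀ j q (γ : SL(2, ℤ)), (v j q) ∣[k j] γ = v j (γ⁻¹ • q)
  bdd : ∀ j q, IsBoundedAtImInfty (v j q)
  indep : ∀ τ : ℍ, LinearIndependent ℂ (fun j : ι => fun q : SL(2, ℤ) ⧸ Γ => v j q τ)
  card : Fintype.card ι = Fintype.card (SL(2, ℤ) ⧸ Γ)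
  infty : ∃ (e : (SL(2, ℤ) ⧸ Γ) → ℝ) (B : Matrix (SL(2, ℤ) ⧸ Γ) (SL(2, ℤ) ⧸ Γ) ℂ)
      (U : ℍ → Matrix ι (SL(2, ℤ) ⧸ Γ) ℂ) (L : Matrix ι (SL(2, ℤ) ⧸ Γ) ℂ),
      (∀ q, e q < 1) ∧ B.det ≠ 0 ∧
      (∀ (τ : ℍ) (j : ι) (q : SL(2, ℤ) ⧸ Γ), v j q τ =
        ∑ q', U τ j q' * Complex.exp (2 * Real.pi * Complex.I * e q' * τ) * B q' q) ∧
      (∀ j q, Tendsto (fun τ : ℍ => U τ j q) atImInfty (𝓝 (L j q))) ∧
      LinearIndependent ℂ (fun j : ι => L j)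

variable {Γ} {k : ι → ℤ} {v : ι → (SL(2, ℤ) ⧸ Γ) → ℍ → ℂ}

lemma IsFrame.toSq (hv : IsFrame Γ k v) (σ : (SL(2, ℤ) ⧸ Γ) ≃ ι) :
    IsSqFrame Γ (fun q => k (σ q)) (fun q => v (σ q)) where
  hol j q := hv.hol (σ j) q
  equi j q γ := hv.equi (σ j) q γ
  bdd j q := hv.bdd (σ j) q
  indep τ := (hv.indep τ).comp σ σ.injective
  infty := by
    obtain ⟨e, B, U, L, he, hB, hfac, hU, hL⟩ := hv.infty
    exact ⟨e, B, fun τ => Matrix.of fun j q => U τ (σ j) q, Matrix.of fun j q => L (σ j) q,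
      he, hB, fun τ j q => hfac τ (σ j) q, fun j q => hU (σ j) q, hL.comp σ σ.injective⟩

/-- **Duality, dimension form**: for a frame, `dim S_w(Γ) = ∑ j, dim S_{w + k j}(SL(2,ℤ))`. -/
theorem finrank_cuspSub_of_frame (hv : IsFrame Γ k v) (w : ℤ) :
    Module.finrank ℂ (cuspSub Γ w) = ∑ j : ι, Module.finrank ℂ (CuspForm 𝒮ℒ (w + k j)) := by
  let σ : (SL(2, ℤ) ⧸ Γ) ≃ ι := (Fintype.equivOfCardEq hv.card).symm
  rw [finrank_cuspSub_of_sqFrame (hv.toSq σ) w]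
  exact Equiv.sum_comp σ (fun j => Module.finrank ℂ (CuspForm 𝒮ℒ (w + k j)))

end general

end Fermat.Agent.S20.H128
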