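import Fermat.Agent.S20.H128.DualityCore

/-!
# S20, package C5 (sum of the weights): abstract core

For a frame `v : ι → Q → ℍ → ℂ` (`Q = SL(2,ℤ) ⧸ Γ`) which factors at `i∞` as
`U(τ) · diag(exp(2πi e_q τ)) · B` with `2 ∑ e_q = n`, the determinant `D` of the frame satisfies
`D² = c · Δ^n`, hence `∑ j, k j = 6 n`.
-/

set_option autoImplicit false

open UpperHalfPlane ModularForm CongruenceSubgroup Matrix.SpecialLinearGroup
open Filter Topology Asymptotics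
open scoped MatrixGroups ModularForm Manifold

namespace Fermat.Agent.S20.H128

/-! ### Level-one modular forms from function data -/

/-- Build a level-one modular form from function-level data. -/
def mkModOne (k : ℤ) (f : ℍ → ℂ) (hol : MDiff f) (inv : ∀ γ : SL(2, ℤ), f ∣[k] γ = f)
    (hb : IsBoundedAtImInfty f) : ModularForm 𝒮ℒ k where
  toFun := f
  slash_action_eq' A hA := by
    obtain ⟨A, rfl⟩ := hA
    exact inv A
  holo' := hol
  bdd_at_cusps' hc := by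
    rw [Subgroup.IsArithmetic.isCusp_iff_isCusp_SL2Z] at hc
    rw [OnePoint.isBoundedAt_iff_forall_SL2Z hc]
    intro γ _
    rw [inv γ]
    exact hb

@[simp] lemma coe_mkModOne (k : ℤ) (f : ℍ → ℂ) (hol : MDiff f)
    (inv : ∀ γ : SL(2, ℤ), f ∣[k] γ = f) (hb : IsBoundedAtImInfty f) :
    ⇑(mkModOne k f hol inv hb) = f := rfl

/-- A holomorphic, nowhere vanishing function on `ℍ` which is `SL(2,ℤ)`-invariant of weight `w`
and has a nonzero limit at `i∞` has weight `0`. -/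
theorem weight_eq_zero_of_unit (w : ℤ) (R : ℍ → ℂ) (hol : MDiff R) (hne : ∀ τ, R τ ≠ 0)
    (inv : ∀ γ : SL(2, ℤ), R ∣[w] γ = R) (c₀ : ℂ) (hc₀ : c₀ ≠ 0)
    (hlim : Tendsto R atImInfty (𝓝 c₀)) : w = 0 := by
  have hb : IsBoundedAtImInfty R := hlim.isBigO_one ℝ
  have hlim' : Tendsto (fun τ => (R τ)⁻¹) atImInfty (𝓝 c₀⁻¹) := hlim.inv₀ hc₀
  have hb' : IsBoundedAtImInfty (fun τ => (R τ)⁻¹) := hlim'.isBigO_one ℝ
  have hol' : MDiff (fun τ => (R τ)⁻¹) := MDifferentiable.inv hol hne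
  have inv' : ∀ γ : SL(2, ℤ), (fun τ => (R τ)⁻¹) ∣[-w] γ = fun τ => (R τ)⁻¹ := by
    intro γ
    funext τ
    have h := congrFun (inv γ) τ
    rw [SL_slash_apply] at h ⊢
    rw [← h, mul_inv, zpow_neg, zpow_neg, inv_inv]
  rcases lt_trichotomy w 0 with h | h | h
  · exfalso
    have := ModularFormClass.levelOne_neg_weight_eq_zero h (mkModOne w R hol inv hb)
    exact hne UpperHalfPlane.I (by simpa using congrFun this UpperHalfPlane.I)
  · exact h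
  · exfalso
    have hw : -w < 0 := by omega
    have := ModularFormClass.levelOne_neg_weight_eq_zero hw (mkModOne (-w) _ hol' inv' hb')
    have h2 := congrFun this UpperHalfPlane.I
    simp only [coe_mkModOne, Pi.zero_apply, inv_eq_zero] at h2
    exact hne _ h2

lemma prod_zpow_eq_zpow_sum {ι : Type} [Fintype ι] (a : ℂ) (ha : a ≠ 0) (k : ι → ℤ) :
    ∏ j, a ^ (k j) = a ^ (∑ j, k j) := by
  classical
  refine Finset.induction_on (Finset.univ : Finset ι) (by simp) ?_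
  intro j s hj ih
  rw [Finset.prod_insert hj, Finset.sum_insert hj, ih, zpow_add₀ ha]

lemma discriminant_smul (γ : SL(2, ℤ)) (τ : ℍ) :
    ModularForm.discriminant (γ • τ) = denom γ τ ^ (12 : ℤ) * ModularForm.discriminant τ := by
  have h := congrFun (cuspOne_slash CuspForm.discriminant γ) τ
  rw [SL_slash_apply] at h
  simp only [CuspForm.coe_discriminant] at h
  have h0 : denom γ τ ≠ 0 := denom_ne_zero γ τ
  have h1 : ModularForm.discriminant (γ • τ) =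
      ModularForm.discriminant (γ • τ) * denom γ τ ^ (-12 : ℤ) * denom γ τ ^ (12 : ℤ) := by
    rw [mul_assoc, ← zpow_add₀ h0]
    simp
  rw [h1, h, mul_comm]

lemma tendsto_discriminant_div_q :
    Tendsto (fun τ : ℍ => ModularForm.discriminant τ / Function.Periodic.qParam 1 τ) atImInfty
      (𝓝 1) := by
  refine tendsto_atImInfty_tprod_one_sub_eta_q_pow.congr (fun τ => ?_)
  rw [discriminant_eq_q_prod, mul_div_assoc, mul_comm, div_mul_cancel₀]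
  exact Complex.exp_ne_zero _

/-! ### The determinant of a square frame -/

section sq

variable {Γ : Subgroup SL(2, ℤ)} [Fintype (SL(2, ℤ) ⧸ Γ)] [DecidableEq (SL(2, ℤ) ⧸ Γ)]
  {k : (SL(2, ℤ) ⧸ Γ) → ℤ} {v : (SL(2, ℤ) ⧸ Γ) → (SL(2, ℤ) ⧸ Γ) → ℍ → ℂ}

omit [Fintype (SL(2, ℤ) ⧸ Γ)] [DecidableEq (SL(2, ℤ) ⧸ Γ)] in
lemma frameMat_smul (equi : ∀ j q (γ : SL(2, ℤ)), (v j q) ∣[k j] γ = v j (γ⁻¹ • q))
    (γ : SL(2, ℤ)) (τ : ℍ) :
    frameMat v (γ • τ) = Matrix.of (fun j q => denom γ τ ^ (k j) *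
      ((frameMat v τ).submatrix id (MulAction.toPerm γ⁻¹)) j q) := by
  ext j q
  have h := congrFun (equi j q γ) τ
  rw [SL_slash_apply] at h
  have h0 : denom γ τ ≠ 0 := denom_ne_zero γ τ
  simp only [frameMat, Matrix.of_apply, Matrix.submatrix_apply, id_eq, MulAction.toPerm_apply]
  rw [← h, mul_comm, mul_assoc, ← zpow_add₀ h0]
  simp

lemma sign_cast_sq (σ : Equiv.Perm (SL(2, ℤ) ⧸ Γ)) :
    (((Equiv.Perm.sign σ : ℤˣ) : ℤ) : ℂ) ^ 2 = 1 := by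
  rcases Int.units_eq_one_or (Equiv.Perm.sign σ) with h | h <;> simp [h]

lemma det_frameMat_smul_sq (equi : ∀ j q (γ : SL(2, ℤ)), (v j q) ∣[k j] γ = v j (γ⁻¹ • q))
    (γ : SL(2, ℤ)) (τ : ℍ) :
    (frameMat v (γ • τ)).det ^ 2 =
      denom γ τ ^ (2 * ∑ j, k j) * (frameMat v τ).det ^ 2 := by
  have h0 : denom γ τ ≠ 0 := denom_ne_zero γ τ
  rw [frameMat_smul equi, Matrix.det_mul_column, Matrix.det_permute',
    prod_zpow_eq_zpow_sum _ h0, mul_pow, mul_pow, sign_cast_sq, one_mul, two_mul,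
    zpow_add₀ h0, sq (denom γ τ ^ (∑ j, k j))]

lemma det_frameMat_eq (e : (SL(2, ℤ) ⧸ Γ) → ℝ) (B : Matrix (SL(2, ℤ) ⧸ Γ) (SL(2, ℤ) ⧸ Γ) ℂ)
    (U : ℍ → Matrix (SL(2, ℤ) ⧸ Γ) (SL(2, ℤ) ⧸ Γ) ℂ)
    (hfac : ∀ (τ : ℍ) (j q : SL(2, ℤ) ⧸ Γ), v j q τ =
      ∑ q', U τ j q' * Complex.exp (2 * Real.pi * Complex.I * e q' * τ) * B q' q) (τ : ℍ) :
    (frameMat v τ).det =
      (U τ).det * Complex.exp (2 * Real.pi * Complex.I * ((∑ q, e q : ℝ) : ℂ) * τ) * B.det := by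
  have hM : frameMat v τ = U τ *
      Matrix.diagonal (fun q' => Complex.exp (2 * Real.pi * Complex.I * e q' * τ)) * B := by
    ext j q
    rw [Matrix.mul_apply]
    simp only [frameMat, Matrix.of_apply, Matrix.mul_diagonal]
    exact hfac τ j q
  rw [hM, Matrix.det_mul, Matrix.det_mul, Matrix.det_diagonal, ← Complex.exp_sum]
  congr 3
  rw [Complex.ofReal_sum, Finset.mul_sum, Finset.sum_mul]

/-- **C5, square form.** -/
theorem sum_weights_sq (hol : ∀ j q, MDiff (v j q))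
    (equi : ∀ j q (γ : SL(2, ℤ)), (v j q) ∣[k j] γ = v j (γ⁻¹ • q))
    (indep : ∀ τ : ℍ, LinearIndependent ℂ
      (fun j : SL(2, ℤ) ⧸ Γ => fun q : SL(2, ℤ) ⧸ Γ => v j q τ))
    (n : ℕ) (e : (SL(2, ℤ) ⧸ Γ) → ℝ) (B : Matrix (SL(2, ℤ) ⧸ Γ) (SL(2, ℤ) ⧸ Γ) ℂ)
    (U : ℍ → Matrix (SL(2, ℤ) ⧸ Γ) (SL(2, ℤ) ⧸ Γ) ℂ)
    (L : Matrix (SL(2, ℤ) ⧸ Γ) (SL(2, ℤ) ⧸ Γ) ℂ)
    (hsum : 2 * ∑ q, e q = (n : ℝ)) (hB : B.det ≠ 0)
    (hfac : ∀ (τ : ℍ) (j q : SL(2, ℤ) ⧸ Γ), v j q τ =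
      ∑ q', U τ j q' * Complex.exp (2 * Real.pi * Complex.I * e q' * τ) * B q' q)
    (hU : ∀ j q, Tendsto (fun τ : ℍ => U τ j q) atImInfty (𝓝 (L j q)))
    (hL : LinearIndependent ℂ (fun j : SL(2, ℤ) ⧸ Γ => L j)) :
    ∑ j, k j = 6 * (n : ℤ) := by
  have hLdet : L.det ≠ 0 := det_ne_zero_of_linearIndependent_rows L hL
  have hDne : ∀ τ, (frameMat v τ).det ≠ 0 := fun τ =>
    det_ne_zero_of_linearIndependent_rows _ (indep τ)
  have hΔne : ∀ τ : ℍ, ModularForm.discriminant τ ^ n ≠ 0 := fun τ =>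
    pow_ne_zero n (discriminant_ne_zero τ)
  set D : ℍ → ℂ := fun τ => (frameMat v τ).det with hD
  set R : ℍ → ℂ := fun τ => D τ ^ 2 * (ModularForm.discriminant τ ^ n)⁻¹ with hR
  set K : ℤ := ∑ j, k j with hK
  -- holomorphy
  have hDhol : MDiff D := mdiff_det (frameMat v) (fun i j => hol i j)
  have hΔhol : MDiff (fun τ : ℍ => ModularForm.discriminant τ ^ n) :=
    (cuspOne_mdiff CuspForm.discriminant).pow n
  have hRhol : MDiff R := (hDhol.pow 2).mul (MDifferentiable.inv hΔhol hΔne)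
  have hRne : ∀ τ, R τ ≠ 0 := fun τ =>
    mul_ne_zero (pow_ne_zero 2 (hDne τ)) (inv_ne_zero (hΔne τ))
  -- invariance
  have hRinv : ∀ γ : SL(2, ℤ), R ∣[2 * K - 12 * (n : ℤ)] γ = R := by
    intro γ
    funext τ
    have h0 : denom γ τ ≠ 0 := denom_ne_zero γ τ
    rw [SL_slash_apply]
    simp only [hR, hD]
    rw [det_frameMat_smul_sq equi, discriminant_smul, mul_pow, ← zpow_natCast (denom γ τ ^ (12 : ℤ)),
      ← zpow_mul, mul_inv, neg_sub, zpow_sub₀ h0]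
    have h1 : denom γ τ ^ (2 * K) ≠ 0 := zpow_ne_zero _ h0
    have h2 : denom γ τ ^ ((12 : ℤ) * (n : ℤ)) ≠ 0 := zpow_ne_zero _ h0
    field_simp
    simp only [hK]
    ring
  -- limit at `i∞`
  have hq : ∀ τ : ℍ, Complex.exp (2 * Real.pi * Complex.I * ((∑ q, e q : ℝ) : ℂ) * τ) ^ 2 =
      Function.Periodic.qParam 1 τ ^ n := by
    intro τ
    rw [Function.Periodic.qParam, ← Complex.exp_nat_mul, ← Complex.exp_nat_mul]
    congr 1
    have : ((∑ q, e q : ℝ) : ℂ) = (n : ℂ) / 2 := by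
      have h2 : (∑ q, e q : ℝ) = (n : ℝ) / 2 := by linarith
      rw [h2]
      push_cast
      ring
    rw [this]
    push_cast
    ring
  have hRform : ∀ τ, R τ = (U τ).det ^ 2 * B.det ^ 2 *
      ((ModularForm.discriminant τ / Function.Periodic.qParam 1 τ) ^ n)⁻¹ := by
    intro τ
    have hqne : Function.Periodic.qParam 1 (τ : ℂ) ≠ 0 := Complex.exp_ne_zero _
    simp only [hR, hD]
    rw [det_frameMat_eq e B U hfac τ, mul_pow, mul_pow, hq, div_pow]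
    field_simp
  have hUdet : Tendsto (fun τ => (U τ).det) atImInfty (𝓝 L.det) := by
    have hUL : Tendsto U atImInfty (𝓝 L) :=
      tendsto_pi_nhds.2 (fun i => tendsto_pi_nhds.2 (fun j => hU i j))
    exact ((continuous_id.matrix_det (n := SL(2, ℤ) ⧸ Γ) (R := ℂ)).tendsto L).comp hUL
  have hlim : Tendsto R atImInfty (𝓝 (L.det ^ 2 * B.det ^ 2 * ((1 : ℂ) ^ n)⁻¹)) := by
    have h1 := ((hUdet.pow 2).mul_const (B.det ^ 2)).mul
      ((tendsto_discriminant_div_q.pow n).inv₀ (by simp))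
    exact h1.congr (fun τ => (hRform τ).symm)
  have hc₀ : L.det ^ 2 * B.det ^ 2 * ((1 : ℂ) ^ n)⁻¹ ≠ 0 := by
    simp [hLdet, hB]
  have hw := weight_eq_zero_of_unit (2 * K - 12 * (n : ℤ)) R hRhol hRne hRinv _ hc₀ hlim
  omega

end sq

/-! ### General index type -/

section general

variable {Γ : Subgroup SL(2, ℤ)} [Fintype (SL(2, ℤ) ⧸ Γ)] [DecidableEq (SL(2, ℤ) ⧸ Γ)]
  {ι : Type} [Fintype ι] {k : ι → ℤ} {v : ι → (SL(2, ℤ) ⧸ Γ) → ℍ → ℂ}

/-- **C5**: for a frame whose exponents at `i∞` satisfy `2 ∑ e = d - c` (`d, c : ℕ`),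
`∑ j, k j = 6 (d - c)`. -/
theorem sum_weights_of_frame (hol : ∀ j q, MDiff (v j q))
    (equi : ∀ j q (γ : SL(2, ℤ)), (v j q) ∣[k j] γ = v j (γ⁻¹ • q))
    (indep : ∀ τ : ℍ, LinearIndependent ℂ (fun j : ι => fun q : SL(2, ℤ) ⧸ Γ => v j q τ))
    (card : Fintype.card ι = Fintype.card (SL(2, ℤ) ⧸ Γ)) (d c : ℕ)
    (infty : ∃ (e : (SL(2, ℤ) ⧸ Γ) → ℝ) (B : Matrix (SL(2, ℤ) ⧸ Γ) (SL(2, ℤ) ⧸ Γ) ℂ)
      (U : ℍ → Matrix ι (SL(2, ℤ) ⧸ Γ) ℂ) (L : Matrix ι (SL(2, ℤ) ⧸ Γ) ℂ),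
      (∀ q, 0 ≤ e q) ∧ (2 * ∑ q, e q = (d : ℝ) - c) ∧ B.det ≠ 0 ∧
      (∀ (τ : ℍ) (j : ι) (q : SL(2, ℤ) ⧸ Γ), v j q τ =
        ∑ q', U τ j q' * Complex.exp (2 * Real.pi * Complex.I * e q' * τ) * B q' q) ∧
      (∀ j q, Tendsto (fun τ : ℍ => U τ j q) atImInfty (𝓝 (L j q))) ∧
      LinearIndependent ℂ (fun j : ι => L j)) :
    ∑ j, k j = 6 * ((d : ℤ) - c) := by
  obtain ⟨e, B, U, L, he, hsum, hB, hfac, hU, hL⟩ := infty
  let σ : (SL(2, ℤ) ⧸ Γ) ≃ ι := (Fintype.equivOfCardEq card).symm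
  have hcd : c ≤ d := by
    have h0 : (0 : ℝ) ≤ 2 * ∑ q, e q :=
      mul_nonneg zero_le_two (Finset.sum_nonneg (fun q _ => he q))
    rw [hsum] at h0
    have : (c : ℝ) ≤ d := by linarith
    exact_mod_cast this
  have hsum' : 2 * ∑ q, e q = ((d - c : ℕ) : ℝ) := by
    rw [hsum, Nat.cast_sub hcd]
  have h := sum_weights_sq (k := fun q => k (σ q)) (v := fun q => v (σ q))
    (fun j q => hol (σ j) q) (fun j q γ => equi (σ j) q γ)
    (fun τ => (indep τ).comp σ σ.injective) (d - c) e B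
    (fun τ => Matrix.of fun j q => U τ (σ j) q) (Matrix.of fun j q => L (σ j) q) hsum' hB
    (fun τ j q => hfac τ (σ j) q) (fun j q => hU (σ j) q) (hL.comp σ σ.injective)
  rw [Equiv.sum_comp σ k] at h
  rw [h, Nat.cast_sub hcd]

end general

end Fermat.Agent.S20.H128
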